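import Fermat.Agent.CFT.Selmer.TwoByTwo
import Mathlib.LinearAlgebra.Matrix.Charpoly.Coeff
import Mathlib.LinearAlgebra.Matrix.ToLin
import Mathlib.LinearAlgebra.FiniteDimensional.Lemmas
import Mathlib.LinearAlgebra.Dimension.Constructions
import Mathlib.GroupTheory.IndexNormal
import Mathlib.Tactic.LinearCombination

/-!
# Two-dimensional representations on subgroups of index two

If the image of a group spans all `2 × 2` matrices and the image of a subgroup of index two does
not, the latter is commutative without nilpotents and the outside elements have trace zero.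
-/

set_option autoImplicit false

noncomputable section

open Matrix

namespace FermatAgent.Assembly.IndexTwo

variable {k : Type*} [Field k]

local notation "M₂" => Matrix (Fin 2) (Fin 2) k

/-- Cayley–Hamilton. -/
theorem mul_self_eq (X : M₂) : X * X = X.trace • X - X.det • (1 : M₂) := by
  ext i j
  fin_cases i <;> fin_cases j <;>
    simp [Matrix.mul_apply, Fin.sum_univ_two, trace_fin_two, det_fin_two] <;> ring

theorem trace_commutator (x y : M₂) : (x * y - y * x).trace = 0 := by
  rw [trace_sub, trace_mul_comm, sub_self]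

/-- Two matrices with invertible commutator generate everything. -/
theorem span_eq_top_of_commutator {x y : M₂} (h : (x * y - y * x).det ≠ 0) :
    Submodule.span k (Set.range ![1, x, y, x * y]) = ⊤ := by
  refine LinearIndependent.span_eq_top_of_card_eq_finrank ?_ (by simp [Module.finrank_matrix])
  rw [Fintype.linearIndependent_iff]
  intro g hg
  simp only [Fin.sum_univ_four, Matrix.cons_val_zero, Matrix.cons_val_one, Matrix.cons_val] at hg
  set z := x * y - y * x with hz
  have hu : IsUnit z := (Matrix.isUnit_iff_isUnit_det _).2 h.isUnit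
  have h1 : (g 2 • (1 : M₂) + g 3 • x) * z = 0 := by
    have h2 : x * (g 0 • (1 : M₂) + g 1 • x + g 2 • y + g 3 • (x * y)) -
        (g 0 • (1 : M₂) + g 1 • x + g 2 • y + g 3 • (x * y)) * x = 0 := by
      rw [hg, mul_zero, zero_mul, sub_zero]
    rw [← h2, hz]
    simp only [mul_add, add_mul, mul_smul_comm, smul_mul_assoc, mul_one, one_mul, mul_sub,
      ← mul_assoc]
    abel
  have h3 : g 2 • (1 : M₂) + g 3 • x = 0 := hu.mul_left_eq_zero.1 h1
  have hsc : ∀ r : k, x ≠ r • 1 := fun r hr => h (by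
    rw [hz, hr, smul_mul_assoc, one_mul, mul_smul_comm, mul_one, sub_self, det_zero])
  have h30 : g 3 = 0 := by
    by_contra hne
    refine hsc (-(g 3)⁻¹ * g 2) ?_
    have : g 3 • x = -(g 2 • (1 : M₂)) := eq_neg_of_add_eq_zero_right h3
    calc x = (g 3)⁻¹ • (g 3 • x) := by rw [smul_smul, inv_mul_cancel₀ hne, one_smul]
      _ = _ := by rw [this, smul_neg, smul_smul, neg_mul, neg_smul]
  have h20 : g 2 = 0 := by
    rw [h30, zero_smul, add_zero] at h3
    simpa using (congrFun (congrFun h3 0) 0)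
  rw [h20, h30, zero_smul, zero_smul, add_zero, add_zero] at hg
  have h10 : g 1 = 0 := by
    by_contra hne
    refine hsc (-(g 1)⁻¹ * g 0) ?_
    have : g 1 • x = -(g 0 • (1 : M₂)) := eq_neg_of_add_eq_zero_right hg
    calc x = (g 1)⁻¹ • (g 1 • x) := by rw [smul_smul, inv_mul_cancel₀ hne, one_smul]
      _ = _ := by rw [this, smul_neg, smul_smul, neg_mul, neg_smul]
  rw [h10, zero_smul, add_zero] at hg
  have h00 : g 0 = 0 := by simpa using (congrFun (congrFun hg 0) 0)
  intro i
  fin_cases i <;> assumption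

variable {G : Type*} [Group G] (ρ : G →* Matrix (Fin 2) (Fin 2) k)

theorem det_ne_zero (g : G) : (ρ g).det ≠ 0 :=
  ((Matrix.isUnit_iff_isUnit_det _).1 ((Group.isUnit g).map ρ)).ne_zero

/-- A matrix commuting with a spanning image is scalar. -/
theorem scalar_of_commute (hs : Submodule.span k (Set.range ρ) = ⊤) {x : M₂}
    (h : ∀ g, x * ρ g = ρ g * x) : ∃ r : k, x = r • 1 := by
  have hall : ∀ m : M₂, x * m = m * x := fun m => by
    have hm : m ∈ Submodule.span k (Set.range ρ) := hs ▸ Submodule.mem_top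
    induction hm using Submodule.span_induction with
    | mem y hy => obtain ⟨g, rfl⟩ := hy; exact h g
    | zero => simp
    | add y z _ _ hy hz => rw [mul_add, add_mul, hy, hz]
    | smul r y _ hy => rw [mul_smul_comm, smul_mul_assoc, hy]
  refine ⟨x 0 0, ?_⟩
  have a := hall !![1, 0; 0, 0]
  have b := hall !![0, 1; 0, 0]
  have a01 := congrFun (congrFun a 0) 1
  have a10 := congrFun (congrFun a 1) 0
  have b01 := congrFun (congrFun b 0) 1
  simp [Matrix.mul_apply, Fin.sum_univ_two] at a01 a10 b01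
  ext i j
  fin_cases i <;> fin_cases j <;> simp
  all_goals first | exact a01 | exact a10 | exact a01.symm | exact a10.symm | exact b01 |
    exact b01.symm

variable (H : Subgroup G)

/-- The span of the image of a subgroup is closed under multiplication. -/
private theorem mul_mem_span_image {x y : M₂} (hx : x ∈ Submodule.span k (ρ '' (H : Set G)))
    (hy : y ∈ Submodule.span k (ρ '' (H : Set G))) :
    x * y ∈ Submodule.span k (ρ '' (H : Set G)) := by
  induction hx using Submodule.span_induction with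
  | mem u hu =>
    obtain ⟨a, ha, rfl⟩ := hu
    induction hy using Submodule.span_induction with
    | mem v hv =>
      obtain ⟨b, hb, rfl⟩ := hv
      exact Submodule.subset_span ⟨a * b, H.mul_mem ha hb, map_mul ρ a b⟩
    | zero => simp
    | add v w _ _ hv hw => rw [mul_add]; exact add_mem hv hw
    | smul r v _ hv => rw [mul_smul_comm]; exact Submodule.smul_mem _ r hv
  | zero => simp
  | add u w _ _ hu hw => rw [add_mul]; exact add_mem hu hw
  | smul r u _ hu => rw [smul_mul_assoc]; exact Submodule.smul_mem _ r hu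

/-- The span of the image of a normal subgroup is stable under conjugation. -/
private theorem conj_mem_span_image [hN : H.Normal] (g : G) {x : M₂}
    (hx : x ∈ Submodule.span k (ρ '' (H : Set G))) :
    ρ g * x * ρ g⁻¹ ∈ Submodule.span k (ρ '' (H : Set G)) := by
  induction hx using Submodule.span_induction with
  | mem u hu =>
    obtain ⟨a, ha, rfl⟩ := hu
    exact Submodule.subset_span ⟨g * a * g⁻¹, hN.conj_mem a ha g, by rw [map_mul, map_mul]⟩
  | zero => simp
  | add u w _ _ hu hw => rw [mul_add, add_mul]; exact add_mem hu hw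
  | smul r u _ hu => rw [mul_smul_comm, smul_mul_assoc]; exact Submodule.smul_mem _ r hu

/-- A square-zero matrix has trace and determinant zero. -/
private theorem trace_det_of_sq_zero {u : M₂} (hu : u * u = 0) : u.trace = 0 ∧ u.det = 0 := by
  have hd : u.det = 0 := by
    have := congrArg Matrix.det hu
    rw [det_mul, det_zero] at this
    exact mul_self_eq_zero.1 this
  refine ⟨?_, hd⟩
  have h := mul_self_eq u
  rw [hu, hd, zero_smul, sub_zero, eq_comm, smul_eq_zero] at h
  rcases h with h | h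
  · exact h
  · rw [h, trace_zero]

/-- Two square-zero matrices with square-zero commutator multiply to zero. -/
private theorem mul_eq_zero_of_sq_zero {z w : M₂} (hz2 : z * z = 0) (hw2 : w * w = 0)
    (h0 : (z * w - w * z) * (z * w - w * z) = 0) : z * w = 0 := by
  obtain ⟨hzt, hzd⟩ := trace_det_of_sq_zero hz2
  obtain ⟨hwt, hwd⟩ := trace_det_of_sq_zero hw2
  have hs2 : z * w + w * z = (z + w).trace • (z + w) - (z + w).det • (1 : M₂) := by
    rw [← mul_self_eq, add_mul, mul_add, mul_add, hz2, hw2, zero_add, add_zero]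
  rw [trace_add, hzt, hwt, add_zero, zero_smul, zero_sub] at hs2
  have e1 : (z * w - w * z) * (z * w - w * z) = (z * w + w * z) * (z * w + w * z) := by
    have f1 : z * w * (w * z) = 0 := by
      rw [← mul_assoc, mul_assoc z w w, hw2, mul_zero, zero_mul]
    have f2 : w * z * (z * w) = 0 := by
      rw [← mul_assoc, mul_assoc w z z, hz2, mul_zero, zero_mul]
    simp only [sub_mul, mul_sub, add_mul, mul_add, f1, f2]
    abel
  rw [e1, hs2, neg_mul_neg, smul_one_mul, smul_smul, smul_eq_zero, mul_self_eq_zero] at h0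
  have hd0 := h0.resolve_right one_ne_zero
  rw [hd0, zero_smul, neg_zero] at hs2
  have h00 := congrFun (congrFun hz2 0) 0
  have h01 := congrFun (congrFun hz2 0) 1
  have h10 := congrFun (congrFun hz2 1) 0
  have h11 := congrFun (congrFun hz2 1) 1
  simp only [Matrix.mul_apply, Fin.sum_univ_two, Matrix.zero_apply] at h00 h01 h10 h11
  have c00 := congrFun (congrFun hs2 0) 0
  have c11 := congrFun (congrFun hs2 1) 1
  have c01 := congrFun (congrFun hs2 0) 1
  have c10 := congrFun (congrFun hs2 1) 0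
  simp only [Matrix.add_apply, Matrix.mul_apply, Fin.sum_univ_two, Matrix.zero_apply]
    at c00 c11 c01 c10
  have zt : z 0 0 + z 1 1 = 0 := by rw [← trace_fin_two]; exact hzt
  have wt : w 0 0 + w 1 1 = 0 := by rw [← trace_fin_two]; exact hwt
  have wd : w 0 0 * w 1 1 - w 0 1 * w 1 0 = 0 := by rw [← det_fin_two]; exact hwd
  have zd : z 0 0 * z 1 1 - z 0 1 * z 1 0 = 0 := by rw [← det_fin_two]; exact hzd
  have key : ∀ i j, (z * w) i j * (z * w) i j = 0 := fun i j => by
    simp only [Matrix.mul_apply, Fin.sum_univ_two]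
    fin_cases i <;> fin_cases j <;> simp only [Fin.zero_eta, Fin.mk_one] <;> grind
  ext i j
  exact mul_self_eq_zero.1 (key i j)

/-- A matrix killing all its conjugates by a spanning image vanishes. -/
private theorem eq_zero_of_mul_conj (hs : Submodule.span k (Set.range ρ) = ⊤) {z : M₂}
    (hall : ∀ g, z * (ρ g * z * ρ g⁻¹) = 0) : z = 0 := by
  have hzero : ∀ m : M₂, z * m * z = 0 := fun m => by
    have hm : m ∈ Submodule.span k (Set.range ρ) := hs ▸ Submodule.mem_top
    induction hm using Submodule.span_induction with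
    | mem y hy =>
      obtain ⟨g, rfl⟩ := hy
      calc z * ρ g * z = z * (ρ g * z * ρ g⁻¹) * ρ g := by
            rw [mul_assoc, mul_assoc z, mul_assoc (ρ g * z), ← map_mul, inv_mul_cancel, map_one,
              mul_one]
        _ = 0 := by rw [hall, zero_mul]
    | zero => simp
    | add y y' _ _ hy hy' => rw [mul_add, add_mul, hy, hy', add_zero]
    | smul r y _ hy => rw [mul_smul_comm, smul_mul_assoc, hy, smul_zero]
  ext i j
  have h := congrFun (congrFun (hzero (Matrix.single j i 1)) i) j
  fin_cases i <;> fin_cases j <;>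
    simpa [Matrix.mul_apply, Matrix.single, Fin.sum_univ_two] using h

/-- An element outside a subgroup of index two with commutative image cannot centralise it. -/
private theorem exists_not_commute_of_index_two (hs : Submodule.span k (Set.range ρ) = ⊤)
    (hH : H.index = 2) (hcomm : ∀ a ∈ H, ∀ b ∈ H, ρ a * ρ b = ρ b * ρ a) {g : G} (hg : g ∉ H) :
    ∃ a ∈ H, ρ a * ρ g ≠ ρ g * ρ a := by
  by_contra hcon
  push Not at hcon
  -- every element is `g` times an element of `H`
  have hcos : ∀ u, u ∈ H ∨ g⁻¹ * u ∈ H := fun u => or_iff_not_imp_left.2 fun hu =>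
    (Subgroup.mul_mem_iff_of_index_two hH).2 ⟨fun h => absurd (inv_mem_iff.1 h) hg,
      fun h => absurd h hu⟩
  have hu' : ∀ u, ρ u = ρ g * ρ (g⁻¹ * u) := fun u => by rw [← map_mul, mul_inv_cancel_left]
  have hsc : ∀ a ∈ H, ∃ r : k, ρ a = r • 1 := fun a ha => scalar_of_commute ρ hs fun u => by
    rcases hcos u with hu | hu
    · exact hcomm a ha u hu
    · rw [hu' u, ← mul_assoc, hcon a ha, mul_assoc, hcomm a ha _ hu, mul_assoc]
  obtain ⟨r, hr⟩ := scalar_of_commute ρ hs (x := ρ g) fun u => by
    rcases hcos u with hu | hu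
    · exact (hcon u hu).symm
    · obtain ⟨r, hr⟩ := hsc _ hu
      rw [hu' u, hr, mul_smul_comm, mul_one, mul_smul_comm, smul_mul_assoc]
  have hle : (⊤ : Submodule k M₂) ≤ Submodule.span k {(1 : M₂)} := by
    rw [← hs, Submodule.span_le]
    rintro _ ⟨u, rfl⟩
    rcases hcos u with hu | hu
    · obtain ⟨s, hs'⟩ := hsc u hu
      exact hs' ▸ Submodule.smul_mem _ _ (Submodule.mem_span_singleton_self _)
    · obtain ⟨s, hs'⟩ := hsc _ hu
      rw [hu' u, hs', hr, smul_one_mul, smul_smul]
      exact Submodule.smul_mem _ _ (Submodule.mem_span_singleton_self _)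
  obtain ⟨r', hr'⟩ :=
    Submodule.mem_span_singleton.1 (hle (Submodule.mem_top (x := !![1, 0; 0, 0])))
  have a00 := congrFun (congrFun hr' 0) 0
  have a11 := congrFun (congrFun hr' 1) 1
  simp at a00 a11
  exact one_ne_zero (a00.symm.trans a11)

/-- An element normalising a commutative algebra without nilpotents, but not centralising it, has
trace zero. -/
private theorem trace_eq_zero_of_conj_mem (h2 : (2 : k) ≠ 0) {B : Submodule k M₂}
    (hone : (1 : M₂) ∈ B) (hred : ∀ z ∈ B, z * z = 0 → z = 0)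
    (hcomm : ∀ x ∈ B, ∀ y ∈ B, x * y = y * x) {g : G}
    (hconj : ∀ x ∈ B, ρ g * x * ρ g⁻¹ ∈ B) {x : M₂} (hxB : x ∈ B)
    (hxg : x * ρ g ≠ ρ g * x) : (ρ g).trace = 0 := by
  have hinv : ρ g⁻¹ * ρ g = 1 := by rw [← map_mul, inv_mul_cancel, map_one]
  have hinv' : ρ g * ρ g⁻¹ = 1 := by rw [← map_mul, mul_inv_cancel, map_one]
  -- a traceless element of `B`
  set x₀ := x - (x.trace / 2) • (1 : M₂)
  have hx₀B : x₀ ∈ B := sub_mem hxB (B.smul_mem _ hone)
  have hx₀t : x₀.trace = 0 := by
    simp only [x₀, trace_sub, trace_smul, trace_one, Fintype.card_fin, Nat.cast_ofNat, smul_eq_mul]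
    rw [div_mul_cancel₀ _ h2, sub_self]
  have hxe : x = x₀ + (x.trace / 2) • (1 : M₂) := (sub_add_cancel _ _).symm
  have hns : ∀ r : k, x₀ ≠ r • 1 := fun r hr => hxg (by
    rw [hxe, hr, ← add_smul, smul_one_mul, mul_smul_comm, mul_one])
  have hd0 : x₀.det ≠ 0 := fun hd => hns 0 (by
    rw [zero_smul]
    exact hred _ hx₀B (by rw [mul_self_eq, hx₀t, hd, zero_smul, zero_smul, sub_zero]))
  obtain ⟨r, s, hrs⟩ := CFT.Selmer.exists_eq_add_of_commute (x := x₀)
    (fun ⟨h1, h2, h3⟩ => hns (x₀ 0 0) (by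
      ext i j; fin_cases i <;> fin_cases j <;> simp [h1, h2, h3]))
    (hcomm _ hx₀B _ (hconj _ hx₀B))
  have ht' : (ρ g * x₀ * ρ g⁻¹).trace = 0 := by
    rw [trace_mul_cycle, hinv, one_mul, hx₀t]
  have hr0 : r = 0 := by
    rw [hrs, trace_add, trace_smul, trace_smul, hx₀t, trace_one] at ht'
    simpa [h2] using ht'
  rw [hr0, zero_smul, zero_add] at hrs
  have hdet : (ρ g * x₀ * ρ g⁻¹).det = x₀.det := by
    rw [det_mul, det_mul, mul_right_comm, ← det_mul, hinv', det_one, one_mul]
  rw [hrs, det_smul, Fintype.card_fin] at hdet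
  have hs2 : s ^ 2 = 1 := mul_right_cancel₀ hd0 (by rw [hdet, one_mul])
  have hgx : ρ g * x₀ = s • (x₀ * ρ g) := by
    rw [← smul_mul_assoc, ← hrs, mul_assoc, hinv, mul_one]
  rcases (sq_eq_one_iff.1 hs2) with rfl | rfl
  · exfalso
    rw [one_smul] at hgx
    refine hxg ?_
    rw [hxe, add_mul, mul_add, hgx, smul_one_mul, mul_smul_comm, mul_one]
  · have hu : IsUnit x₀ := (Matrix.isUnit_iff_isUnit_det _).2 hd0.isUnit
    obtain ⟨u, hu⟩ := hu
    rw [neg_one_smul] at hgx
    have e : (↑u⁻¹ : M₂) * ρ g * x₀ = -ρ g := by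
      rw [mul_assoc, hgx, mul_neg, ← mul_assoc, ← hu, Units.inv_mul, one_mul]
    have h := congrArg Matrix.trace e
    rw [trace_mul_cycle, ← hu, Units.mul_inv, one_mul, trace_neg] at h
    have h' : (2 : k) * (ρ g).trace = 0 := by linear_combination h
    exact (mul_eq_zero.1 h').resolve_left h2


/-- **The dichotomy.** -/
theorem dichotomy (h2 : (2 : k) ≠ 0) (hs : Submodule.span k (Set.range ρ) = ⊤)
    (hH : H.index = 2) :
    Submodule.span k (ρ '' (H : Set G)) = ⊤ ∨
      ((∀ g ∉ H, (ρ g).trace = 0) ∧ (∀ a ∈ H, ∀ b ∈ H, ρ a * ρ b = ρ b * ρ a) ∧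
        ∀ h ∈ H, (ρ h - 1) * (ρ h - 1) = 0 → ρ h = 1) := by
  classical
  refine (Classical.em _).imp_right fun htop => ?_
  set B := Submodule.span k (ρ '' (H : Set G))
  have hone : (1 : M₂) ∈ B := Submodule.subset_span ⟨1, H.one_mem, map_one ρ⟩
  have hmul : ∀ x ∈ B, ∀ y ∈ B, x * y ∈ B := fun x hx y hy => mul_mem_span_image ρ H hx hy
  have : H.Normal := Subgroup.normal_of_index_eq_two hH
  have hconj : ∀ g, ∀ x ∈ B, ρ g * x * ρ g⁻¹ ∈ B := fun g x hx => conj_mem_span_image ρ H g hx
  -- no invertible commutator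
  have hcomm0 : ∀ x ∈ B, ∀ y ∈ B, (x * y - y * x) * (x * y - y * x) = 0 := fun x hx y hy => by
    by_contra hne
    have hd : (x * y - y * x).det ≠ 0 := fun hd => hne (by
      rw [mul_self_eq, trace_commutator, hd, zero_smul, zero_smul, sub_zero])
    refine htop (eq_top_iff.2 ?_)
    rw [← span_eq_top_of_commutator hd, Submodule.span_le]
    rintro _ ⟨i, rfl⟩
    fin_cases i
    exacts [hone, hx, hy, hmul x hx y hy]
  -- no nilpotent
  have hred : ∀ z ∈ B, z * z = 0 → z = 0 := fun z hz hz2 =>
    eq_zero_of_mul_conj ρ hs fun g =>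
      mul_eq_zero_of_sq_zero hz2 (by
        rw [show ρ g * z * ρ g⁻¹ * (ρ g * z * ρ g⁻¹) = ρ g * (z * z) * ρ g⁻¹ by
          simp only [mul_assoc]
          rw [← mul_assoc (ρ g⁻¹) (ρ g), ← map_mul, inv_mul_cancel, map_one, one_mul],
          hz2, mul_zero, zero_mul])
        (hcomm0 z hz _ (hconj g z hz))
  have hcomm : ∀ x ∈ B, ∀ y ∈ B, x * y = y * x := fun x hx y hy =>
    sub_eq_zero.1 (hred _ (sub_mem (hmul x hx y hy) (hmul y hy x hx)) (hcomm0 x hx y hy))
  have hmemB : ∀ a ∈ H, ρ a ∈ B := fun a ha => Submodule.subset_span ⟨a, ha, rfl⟩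
  have hcommH : ∀ a ∈ H, ∀ b ∈ H, ρ a * ρ b = ρ b * ρ a := fun a ha b hb =>
    hcomm _ (hmemB a ha) _ (hmemB b hb)
  refine ⟨fun g hg => ?_, hcommH,
    fun h hh h0 => sub_eq_zero.1 (hred _ (sub_mem (hmemB h hh) hone) h0)⟩
  obtain ⟨a, ha, hag⟩ := exists_not_commute_of_index_two ρ H hs hH hcommH hg
  exact trace_eq_zero_of_conj_mem ρ h2 hone hred hcomm (hconj g) (hmemB a ha) hag

end FermatAgent.Assembly.IndexTwo
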