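import Fermat.Agent.ECLocal.AtPrime
import Fermat.Agent.BAD.InertiaRoot
import Mathlib.LinearAlgebra.Determinant
import Mathlib.Algebra.Module.ZMod

/-!
# Inertia at `p` on `E[p]`: the two shapes

At semistable reduction inertia at `p` either fixes a quotient line, or all of `E[p]` lies in the
kernel of reduction; then, if some inertia element lies outside a subgroup `H`, the `(p - 1)`-st
powers of the inertia elements outside `H` do not all act as signs.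
-/

set_option autoImplicit false

noncomputable section

open WeierstrassCurve
open scoped WeierstrassCurve.Affine

namespace FermatAgent.Assembly.IndexTwo

open FermatAgent.ECLocal

local notation "Qbar" => AlgebraicClosure ℚ
local notation "GQ" => AlgebraicClosure ℚ ≃ₐ[ℚ] AlgebraicClosure ℚ

variable {W : WeierstrassCurve ℤ} {p : ℕ} [hp : Fact p.Prime]

/-- The action on the torsion. -/
abbrev torEnd (W : WeierstrassCurve ℤ) (p : ℕ) :
    GQ →* Module.End (ZMod p)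
      (Submodule.torsionBy ℤ ((W.map (Int.castRingHom ℚ))⁄Qbar).Point p) :=
  Affine.Point.galoisRepModuleEnd (K := Qbar) ℚ (W.map (Int.castRingHom ℚ)).toAffine p

/-- Inertia either has an eigenvalue one, or all torsion lies in the kernel of reduction. -/
theorem det_sub_one_or_all_isE1 {A : ValuationSubring Qbar} (hodd : Odd p)
    (hA : A.LiesOverPrime p) (hΔ0 : W.Δ ≠ 0) (hss : (p : ℤ) ∣ W.Δ → ¬(p : ℤ) ∣ W.c₄) :
    (∀ σ ∈ A.inertiaSubgroupIn ℚ, LinearMap.det (torEnd W p σ - 1) = 0) ∨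
      ((∃ x₁ : IsLocalRing.ResidueField A,
        (spc (modelAt W A)).Ψ₂Sq.eval x₁ = 0 ∧ (spc (modelAt W A)).Ψ₃.eval x₁ ≠ 0) ∧
      ∀ P : ((W.map (Int.castRingHom ℚ))⁄Qbar).Point, p • P = 0 → IsE1 (toGen W A P)) := by
  classical
  have hV2 := EC.finrank_torsionBy_rat (W.map (Int.castRingHom ℚ))
    (EC.intMap_Δ_ne_zero hΔ0) p
  have : FiniteDimensional (ZMod p)
      (Submodule.torsionBy ℤ ((W.map (Int.castRingHom ℚ))⁄Qbar).Point p) :=
    Module.finite_of_finrank_eq_succ hV2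
  have key : ∀ S : AddSubgroup ((W.map (Int.castRingHom ℚ))⁄Qbar).Point,
      (∀ σ ∈ A.inertiaSubgroupIn ℚ, ∀ P, P - σ • P ∈ S) → ∀ P, p • P = 0 → P ∉ S →
      ∀ σ ∈ A.inertiaSubgroupIn ℚ, LinearMap.det (torEnd W p σ - 1) = 0 := by
    intro S hS P hPp hPS σ hσ
    by_contra hd
    have hu : IsUnit (torEnd W p σ - 1) :=
      (LinearMap.isUnit_iff_isUnit_det _).2 (isUnit_iff_ne_zero.2 hd)
    obtain ⟨x, hx⟩ := ((Module.End.isUnit_iff _).1 hu).2
      ⟨P, by rw [Submodule.mem_torsionBy_iff, natCast_zsmul]; exact hPp⟩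
    refine hPS ?_
    have e : (σ • x.1 - x.1 : ((W.map (Int.castRingHom ℚ))⁄Qbar).Point) = P :=
      congrArg Subtype.val hx
    rw [← e, ← neg_sub]
    exact S.neg_mem (hS σ hσ x.1)
  exact (exists_subgroup_or_all_isE1 hodd hA hΔ0 hss).imp_left fun ⟨S, ⟨P, hPp, hPS⟩, hS⟩ =>
    key S hS P hPp hPS

/-- Arithmetic of `D = (p² - 1)/2`. -/
private theorem half_sq_sub_one (hodd : Odd p) (hp3 : 3 ≤ p) :
    p ≤ (p ^ 2 - 1) / 2 ∧ (p ^ 2 - 1) / 2 ≠ 0 ∧ ¬ p ∣ (p ^ 2 - 1) / 2 := by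
  set D := (p ^ 2 - 1) / 2 with hD
  have hpD : p ≤ D := by
    have : 3 * p ≤ p ^ 2 := by nlinarith
    omega
  have hD0 : D ≠ 0 := by omega
  have hDp : ¬ p ∣ D := fun h => by
    have h2 : p ∣ p ^ 2 - 1 := by
      have he : 2 ∣ p ^ 2 - 1 := by
        obtain ⟨j, hj⟩ := hodd
        exact ⟨2 * j * j + 2 * j, by rw [hj]; ring_nf; omega⟩
      exact dvd_trans h ⟨2, (Nat.div_mul_cancel he).symm⟩
    have h3 : p ∣ p ^ 2 := dvd_pow_self p two_ne_zero
    have hge : 1 ≤ p ^ 2 := by nlinarith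
    have := Nat.dvd_sub h3 h2
    rw [Nat.sub_sub_self hge] at this
    exact hp.out.one_lt.ne' (Nat.dvd_one.1 this)
  exact ⟨hpD, hD0, hDp⟩

/-- Powers of inertia multiply a root by the powers of a root of unity. -/
private theorem inertia_pow_apply {A : ValuationSubring Qbar} (hA : A.LiesOverPrime p) {D : ℕ}
    (hDp : ¬ p ∣ D) (hD0 : D ≠ 0) {σ : GQ} (hσ : σ ∈ A.inertiaSubgroupIn ℚ) {ϖ : Qbar}
    (hϖ0 : ϖ ≠ 0) (hκ : (σ ϖ / ϖ) ^ D = 1) (n : ℕ) : (σ ^ n) ϖ = (σ ϖ / ϖ) ^ n * ϖ := by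
  induction n with
  | zero => simp
  | succ n ih =>
    rw [pow_succ', AlgEquiv.mul_apply, ih, map_mul, map_pow,
      Mazur.inertia_fixes_rootsOfUnity hp.out hA hDp hD0 hσ hκ, pow_succ]
    field_simp

/-- In the supersingular shape tame inertia has no power `p - 1` acting as a sign. -/
theorem false_of_pow_eq_sign {A : ValuationSubring Qbar} (hodd : Odd p)
    (hA : A.LiesOverPrime p) (hΔ0 : W.Δ ≠ 0)
    (hx₁ : ∃ x₁ : IsLocalRing.ResidueField A,
      (spc (modelAt W A)).Ψ₂Sq.eval x₁ = 0 ∧ (spc (modelAt W A)).Ψ₃.eval x₁ ≠ 0)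
    (hall : ∀ P : ((W.map (Int.castRingHom ℚ))⁄Qbar).Point, p • P = 0 → IsE1 (toGen W A P))
    (H : Subgroup GQ) {τ₀ : GQ} (hτ₀ : τ₀ ∈ A.inertiaSubgroupIn ℚ)
    (hτ₀H : τ₀ ∉ H)
    (hsign : ∀ σ ∈ A.inertiaSubgroupIn ℚ, σ ∉ H →
      torEnd W p σ ^ (p - 1) = 1 ∨ torEnd W p σ ^ (p - 1) = -1) : False := by
  classical
  have hp3 : 3 ≤ p := by
    have := hp.out.two_le
    obtain ⟨j, hj⟩ := hodd
    omega
  set D := (p ^ 2 - 1) / 2
  obtain ⟨hpD, hD0, hDp⟩ := half_sq_sub_one (p := p) hodd hp3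
  obtain ⟨ϖ, hϖ⟩ := IsAlgClosed.exists_pow_nat_eq (p : Qbar) (Nat.pos_of_ne_zero hD0)
  have hpQ : (p : Qbar) ≠ 0 := Nat.cast_ne_zero.mpr hp.out.ne_zero
  have hϖ0 : ϖ ≠ 0 := fun h => hpQ (by rw [← hϖ, h, zero_pow hD0])
  -- a point of order `p`
  have hV2 := EC.finrank_torsionBy_rat (W.map (Int.castRingHom ℚ))
    (EC.intMap_Δ_ne_zero hΔ0) p
  have := Module.nontrivial_of_finrank_eq_succ hV2
  obtain ⟨P, hP0⟩ := exists_ne
    (0 : Submodule.torsionBy ℤ ((W.map (Int.castRingHom ℚ))⁄Qbar).Point p)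
  have hn : p • P.1 = 0 := by
    have := P.2
    rw [Submodule.mem_torsionBy_iff, natCast_zsmul] at this
    exact this
  have hxval : 1 < A.valuation (xOrOne P.1) ∧
      A.valuation (xOrOne P.1) ^ D * A.valuation (p : Qbar) = 1 := by
    obtain ⟨pt, hpt⟩ := P
    rcases pt with _ | ⟨x, y, hxy⟩
    · exact absurd (Subtype.ext rfl) hP0
    · exact valuation_x_of_all_isE1 hp.out hodd hA hΔ0 hx₁ hall hxy hn
  set x := xOrOne P.1
  have hx0 : x ≠ 0 := fun h => by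
    have := hxval.1
    rw [h, map_zero] at this
    exact not_lt_zero this
  have hu : A.valuation (x * ϖ) = 1 := by
    refine Mazur.valuation_eq_one_of_pow hD0 ?_
    rw [mul_pow, map_mul, map_pow, hϖ]
    exact hxval.2
  have hxsmul : ∀ σ : GQ, σ x = xOrOne (σ • P.1) := fun σ => by
    show σ (xOrOne P.1) = _
    rcases P.1 with _ | ⟨a, b, hab⟩
    · exact map_one σ
    · rfl
  -- the power `p - 1` fixes `ϖ`
  have hfix : ∀ σ ∈ A.inertiaSubgroupIn ℚ, σ ∉ H → (σ ^ (p - 1)) ϖ = ϖ := by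
    intro σ hσ hσH
    set g := σ ^ (p - 1)
    have hg : g ∈ A.inertiaSubgroupIn ℚ := pow_mem hσ _
    have hgx : g x = x := by
      rw [hxsmul]
      have hgP : torEnd W p g P = P ∨ torEnd W p g P = -P := by
        rw [map_pow]
        rcases hsign σ hσ hσH with h | h
        · exact Or.inl (by rw [h]; rfl)
        · exact Or.inr (by rw [h]; rfl)
      rcases hgP with h | h
      · rw [show g • P.1 = P.1 from congrArg Subtype.val h]
      · rw [show g • P.1 = -P.1 from congrArg Subtype.val h]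
        show xOrOne (-P.1) = xOrOne P.1
        rcases P.1 with _ | ⟨a, b, hab⟩
        · rfl
        · rfl
    have h : g ϖ / ϖ = 1 := by
      refine Mazur.root_eq_of_sub_lt hp.out hA hDp hD0 (map_one _) ?_ ?_
      · rw [div_pow, ← map_pow, hϖ, map_natCast, div_self hpQ, one_pow]
      · have hlt := Mazur.valuation_map_sub_lt_one hp.out hA hg hu.le
        rw [map_mul, hgx, ← mul_sub] at hlt
        rw [show g ϖ / ϖ - 1 = (x * (g ϖ - ϖ)) / (x * ϖ) by field_simp, map_div₀, hu, div_one]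
        exact hlt
    exact (div_eq_one_iff_eq hϖ0).1 h
  -- tame inertia
  have : NeZero D := ⟨hD0⟩
  obtain ⟨ζ, hζ⟩ := HasEnoughRootsOfUnity.exists_primitiveRoot Qbar D
  obtain ⟨τ, hτ, hτϖ, hτζ⟩ := BAD.exists_inertia_smul_root hp.out hA hD0
    ((hp.out.coprime_iff_not_dvd.2 hDp).symm) hϖ hζ.pow_eq_one
  have hroot : ∀ σ ∈ A.inertiaSubgroupIn ℚ, ∃ κ : Qbar, κ ^ D = 1 ∧ σ ϖ = κ * ϖ ∧
      (σ ∉ H → κ ^ (p - 1) = 1) := fun σ hσ => by
    refine ⟨σ ϖ / ϖ, by rw [div_pow, ← map_pow, hϖ, map_natCast, div_self hpQ],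
      (div_mul_cancel₀ _ hϖ0).symm, fun hσH => ?_⟩
    have hκ : (σ ϖ / ϖ) ^ D = 1 := by rw [div_pow, ← map_pow, hϖ, map_natCast, div_self hpQ]
    have h := hfix σ hσ hσH
    rw [inertia_pow_apply hA hDp hD0 hσ hϖ0 hκ] at h
    exact mul_right_cancel₀ hϖ0 (h.trans (one_mul ϖ).symm)
  have hζp : ζ ^ (p - 1) = 1 := by
    by_cases hτH : τ ∈ H
    · obtain ⟨κ₀, hκ₀, hκ₀ϖ, h₀⟩ := hroot τ₀ hτ₀
      obtain ⟨κ, -, hκϖ, h₁⟩ := hroot (τ₀ * τ) (mul_mem hτ₀ hτ)
      have hmem : τ₀ * τ ∉ H := fun h => hτ₀H ((H.mul_mem_cancel_right hτH).1 h)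
      have e : κ = κ₀ * ζ := by
        rw [AlgEquiv.mul_apply, hτϖ, map_mul, hκ₀ϖ,
          Mazur.inertia_fixes_rootsOfUnity hp.out hA hDp hD0 hτ₀ hζ.pow_eq_one, ← mul_assoc] at hκϖ
        rw [mul_comm κ₀]
        exact (mul_right_cancel₀ hϖ0 hκϖ).symm
      have h2 := h₁ hmem
      rwa [e, mul_pow, h₀ hτ₀H, one_mul] at h2
    · obtain ⟨κ, -, hκϖ, h₁⟩ := hroot τ hτ
      have e : κ = ζ := mul_right_cancel₀ hϖ0 (hκϖ.symm.trans hτϖ)
      exact e ▸ h₁ hτH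
  have := Nat.le_of_dvd (by omega) ((hζ.pow_eq_one_iff_dvd (p - 1)).1 hζp)
  omega

end FermatAgent.Assembly.IndexTwo
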