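import Fermat.Agent.Assembly.Vocabulary
import Fermat.Agent.Assembly.IndexTwo.Algebra
import Fermat.Agent.Assembly.IndexTwo.Local
import Fermat.Agent.ECLocal.StableLine
import Fermat.Agent.RT.Tame
import Fermat.Agent.EC.DetFrobenius
import Fermat.Agent.EC.FixedField
import Fermat.Prelude.Def_GaloisRep_ComplexConjugation

/-!
# Irreducible semistable `E[p]` stays absolutely irreducible on subgroups of index two

`indexTwo`: for a semistable curve and an odd prime `p` with irreducible `E[p]`, the image of every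
subgroup `H` of index two spans all endomorphisms of `E[p]`. Complex conjugation and irreducibility
make the whole image span (`exists_basis_span_eq_top`). If the image of `H` did not, it would be
commutative and elements outside `H` would have trace zero. Inertia away from `p` is unipotent,
hence lies in `H`; so some inertia element at `p` lies outside. The supersingular shape there is
then impossible, and the ordinary shape forces `p = 3`, where the constraints on the image are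
contradictory.
-/

set_option autoImplicit false

noncomputable section

open WeierstrassCurve
open scoped WeierstrassCurve.Affine Pointwise

namespace FermatAgent.Assembly.IndexTwo

open FermatAgent.GaloisBasic

local notation "Qbar" => AlgebraicClosure ℚ
local notation "GQ" => AlgebraicClosure ℚ ≃ₐ[ℚ] AlgebraicClosure ℚ

section Span

variable {k V : Type*} [Field k] [AddCommGroup V] [Module k V] {G : Type*} [Group G]
  (φ : G →* Module.End k V)

/-- Irreducibility and a reflection make the image span all matrices. -/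
theorem exists_basis_span_eq_top (h2 : (2 : k) ≠ 0) (hV : Module.finrank k V = 2)
    (hirr : ∀ v : V, v ≠ 0 → ∃ g, ∀ r : k, φ g v ≠ r • v)
    {c : G} (hc : φ c * φ c = 1) (hd : LinearMap.det (φ c) = -1) :
    ∃ b : Module.Basis (Fin 2) k V, Submodule.span k
      (Set.range ((LinearMap.toMatrixAlgEquiv b : _ →* Matrix (Fin 2) (Fin 2) k).comp φ)) = ⊤ := by
  classical
  have : FiniteDimensional k V := Module.finite_of_finrank_eq_succ hV
  have hne : ∀ e : k, e * e = 1 → ∃ v : V, v ≠ 0 ∧ φ c v = e • v := by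
    intro e he
    by_contra hcon
    push Not at hcon
    have h0 : ∀ v, φ c v = -e • v := fun v => by
      by_contra hv
      refine hcon (φ c v + e • v) (fun h => hv ?_) ?_
      · rw [neg_smul]; exact eq_neg_of_add_eq_zero_left h
      · rw [map_add, map_smul, ← Module.End.mul_apply, hc, Module.End.one_apply,
          smul_add, smul_smul, he, one_smul, add_comm]
    have e1 : φ c = (-e) • (1 : Module.End k V) := LinearMap.ext h0
    rw [e1, LinearMap.det_smul, hV, map_one, neg_sq, mul_one, pow_two, he] at hd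
    exact h2 (by linear_combination hd)
  obtain ⟨u, hu0, hu⟩ := hne 1 (mul_one 1)
  obtain ⟨v, hv0, hv⟩ := hne (-1) (by rw [neg_mul_neg, mul_one])
  rw [one_smul] at hu
  have hli : LinearIndependent k ![u, v] := by
    refine (LinearIndependent.pair_iff' hu0).2 fun a ha => hv0 ?_
    have h1 : φ c v = v := by rw [← ha, map_smul, hu]
    rw [hv, neg_one_smul, neg_eq_iff_add_eq_zero, ← two_smul k] at h1
    exact (smul_eq_zero.1 h1).resolve_left h2
  let b := basisOfLinearIndependentOfCardEqFinrank hli (by simp [hV])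
  have hb : ⇑b = ![u, v] := coe_basisOfLinearIndependentOfCardEqFinrank hli _
  refine ⟨b, ?_⟩
  set M : G →* Matrix (Fin 2) (Fin 2) k := (LinearMap.toMatrixAlgEquiv b : _ →* _).comp φ
  set S := Submodule.span k (Set.range M)
  have hM : ∀ g i j, M g i j = b.repr (φ g (b j)) i := fun g i j =>
    LinearMap.toMatrixAlgEquiv_apply b _ i j
  have hone : (1 : Matrix (Fin 2) (Fin 2) k) ∈ S :=
    Submodule.subset_span ⟨1, map_one M⟩
  have hmul : ∀ x ∈ S, ∀ y ∈ S, x * y ∈ S := fun x hx y hy => by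
    induction hx using Submodule.span_induction with
    | mem x hx =>
      obtain ⟨g, rfl⟩ := hx
      induction hy using Submodule.span_induction with
      | mem y hy => obtain ⟨g', rfl⟩ := hy; exact Submodule.subset_span ⟨g * g', map_mul M g g'⟩
      | zero => simp
      | add y y' _ _ hy hy' => rw [mul_add]; exact add_mem hy hy'
      | smul r y _ hy => rw [mul_smul_comm]; exact S.smul_mem r hy
    | zero => simp
    | add x x' _ _ hx hx' => rw [add_mul]; exact add_mem hx hx'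
    | smul r x _ hx => rw [smul_mul_assoc]; exact S.smul_mem r hx
  have hMc : M c = !![1, 0; 0, -1] := by
    ext i j
    rw [hM]
    fin_cases j <;> simp only [hb, Fin.zero_eta, Fin.mk_one, Matrix.cons_val_zero,
      Matrix.cons_val_one]
    · rw [hu, show u = b 0 by rw [hb]; rfl, b.repr_self]
      fin_cases i <;> simp
    · rw [hv, map_smul, show v = b 1 by rw [hb]; rfl, b.repr_self]
      fin_cases i <;> simp
  have hcS : M c ∈ S := Submodule.subset_span ⟨c, rfl⟩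
  have h00 : (!![1, 0; 0, 0] : Matrix (Fin 2) (Fin 2) k) ∈ S := by
    have := S.smul_mem (2 : k)⁻¹ (add_mem hone hcS)
    rw [hMc] at this
    convert this using 1
    ext i j
    fin_cases i <;> fin_cases j <;> simp [one_add_one_eq_two, h2]
  have h11 : (!![0, 0; 0, 1] : Matrix (Fin 2) (Fin 2) k) ∈ S := by
    convert sub_mem hone h00 using 1
    ext i j
    fin_cases i <;> fin_cases j <;> simp
  have hoff : ∀ i j : Fin 2, i ≠ j → ∃ g, M g i j ≠ 0 := fun i j hij => by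
    obtain ⟨g, hg⟩ := hirr (b j) (b.ne_zero j)
    refine ⟨g, fun h0 => hg (M g j j) ?_⟩
    conv_lhs => rw [← b.sum_repr (φ g (b j)), Fin.sum_univ_two, ← hM, ← hM]
    fin_cases i <;> fin_cases j <;> simp_all
  obtain ⟨g, hg⟩ := hoff 1 0 (by decide)
  obtain ⟨g', hg'⟩ := hoff 0 1 (by decide)
  refine eq_top_iff.2 fun m _ => ?_
  have e : m = m 0 0 • !![1, 0; 0, 0] + m 1 1 • !![0, 0; 0, 1] +
      (m 1 0 / M g 1 0) • (!![0, 0; 0, 1] * M g * !![1, 0; 0, 0]) +
      (m 0 1 / M g' 0 1) • (!![1, 0; 0, 0] * M g' * !![0, 0; 0, 1]) := by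
    ext i j
    fin_cases i <;> fin_cases j <;>
      simp [Matrix.mul_apply, Fin.sum_univ_two, Matrix.add_apply, Matrix.smul_apply, hg, hg',
        -Matrix.cons_mul]
  rw [e]
  exact add_mem (add_mem (add_mem (S.smul_mem _ h00) (S.smul_mem _ h11))
    (S.smul_mem _ (hmul _ (hmul _ h11 _ (Submodule.subset_span ⟨g, rfl⟩)) _ h00)))
    (S.smul_mem _ (hmul _ (hmul _ h00 _ (Submodule.subset_span ⟨g', rfl⟩)) _ h11))

end Span

theorem one_ne_neg_one_three : (1 : ZMod 3) ≠ -1 := by decide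

theorem zmod_three_cases : ∀ x : ZMod 3, x = 0 ∨ x = 1 ∨ x = 2 := by decide

variable {W : WeierstrassCurve ℤ} {p : ℕ} [hp : Fact p.Prime]

section Image

variable {k : Type*} [Field k] {G : Type*} [Group G] {ρ : G →* Matrix (Fin 2) (Fin 2) k}
  {H : Subgroup G}

/-- An image spanning the matrices spans the endomorphisms. -/
private lemma span_image_eq_top_of_algEquiv {V : Type*} [AddCommGroup V] [Module k V]
    (E : Module.End k V ≃ₐ[k] Matrix (Fin 2) (Fin 2) k) (φ : G →* Module.End k V) (S : Set G)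
    (h : Submodule.span k ((fun g => E (φ g)) '' S) = ⊤) : Submodule.span k (φ '' S) = ⊤ := by
  refine Submodule.map_injective_of_injective (f := E.toLinearMap) E.injective ?_
  rw [Submodule.map_span, ← Set.image_comp, Submodule.map_top,
    LinearMap.range_eq_top.2 E.surjective]
  exact h

/-- If the image of `H` does not span, then `H` contains the kernel. -/
private lemma mem_of_map_eq_one (hs : Submodule.span k (Set.range ρ) = ⊤) (hH : H.index = 2)
    (hne : Submodule.span k (ρ '' (H : Set G)) ≠ ⊤) {σ : G} (hσ : ρ σ = 1) : σ ∈ H := by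
  by_contra hσH
  refine hne (eq_top_iff.2 (hs ▸ Submodule.span_mono ?_))
  rintro _ ⟨g, rfl⟩
  by_cases hg : g ∈ H
  · exact ⟨g, hg, rfl⟩
  · exact ⟨g * σ, (Subgroup.mul_mem_iff_of_index_two hH).2 (iff_of_false hg hσH),
      by rw [map_mul, hσ, mul_one]⟩

/-- In odd characteristic a unipotent element lies in `H`, hence acts trivially. -/
private lemma mem_and_map_eq_one_of_unipotent {p : ℕ} (hodd : Odd p) (hp : (p : k) = 0)
    (hH : H.index = 2) (hkH : ∀ σ, ρ σ = 1 → σ ∈ H)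
    (hss : ∀ h ∈ H, (ρ h - 1) * (ρ h - 1) = 0 → ρ h = 1) {σ : G}
    (hu : (ρ σ - 1) * (ρ σ - 1) = 0) : σ ∈ H ∧ ρ σ = 1 := by
  have hN : ∀ n : ℕ, (1 + (ρ σ - 1)) ^ n = 1 + (n : k) • (ρ σ - 1) := fun n => by
    induction n with
    | zero => simp
    | succ n ih =>
      rw [pow_succ, ih, Nat.cast_succ]
      simp only [add_smul, one_smul, mul_add, add_mul, smul_mul_assoc, hu, smul_zero, mul_one,
        one_mul]
      abel
  have hpow : ρ (σ ^ p) = 1 := by
    rw [map_pow, show ρ σ = 1 + (ρ σ - 1) by abel, hN, hp, zero_smul, add_zero]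
  have hσH : σ ∈ H := by
    obtain ⟨j, rfl⟩ := hodd
    have hmem : σ ^ (2 * j) ∈ H := by
      rw [pow_mul]
      exact pow_mem (Subgroup.sq_mem_of_index_two hH σ) j
    exact (H.mul_mem_cancel_left hmem).1 (pow_succ σ (2 * j) ▸ hkH _ hpow)
  exact ⟨hσH, hss σ hσH hu⟩

/-- If `X - 1` is singular then the trace is the determinant plus one. -/
private lemma trace_eq_det_add_one {X : Matrix (Fin 2) (Fin 2) k} (h : (X - 1).det = 0) :
    X.trace = X.det + 1 := by
  simp only [Matrix.det_fin_two, Matrix.trace_fin_two, Matrix.sub_apply, Matrix.one_apply_eq,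
    Matrix.one_apply_ne (show (0 : Fin 2) ≠ 1 by decide),
    Matrix.one_apply_ne (show (1 : Fin 2) ≠ 0 by decide), sub_zero] at h ⊢
  linear_combination -h

variable {τ : G}

/-- The subgroup of squares of the image of `H` and their translates by `τ`. -/
private lemma exists_subgroup_squares
    (hcomm : ∀ a ∈ H, ∀ b ∈ H, ρ a * ρ b = ρ b * ρ a) (hτsq : ρ τ * ρ τ = 1)
    (hflip : ∀ h ∈ H, ρ τ * ρ h * ρ τ = ρ h⁻¹) :
    ∃ T : Subgroup G, ∀ g, g ∈ T ↔ ∃ h ∈ H, ρ g = ρ (h * h) ∨ ρ g = ρ (h * h) * ρ τ := by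
  have hswap : ∀ h ∈ H, ρ τ * ρ h = ρ h⁻¹ * ρ τ := fun h hh => by
    rw [← hflip h hh, mul_assoc (ρ τ * ρ h), hτsq, mul_one]
  have hc : ∀ a ∈ H, ∀ b ∈ H, ρ (a * a) * ρ (b * b) = ρ (a * b * (a * b)) := fun a ha b hb => by
    simp only [map_mul, mul_assoc]
    rw [← mul_assoc (ρ b) (ρ a), hcomm b hb a ha, mul_assoc]
  refine ⟨{ carrier := {g | ∃ h ∈ H, ρ g = ρ (h * h) ∨ ρ g = ρ (h * h) * ρ τ}
            one_mem' := ⟨1, H.one_mem, Or.inl (by rw [mul_one])⟩
            mul_mem' := ?_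
            inv_mem' := ?_ }, fun g => Iff.rfl⟩
  · rintro g g' ⟨h, hh, e⟩ ⟨h', hh', e'⟩
    rcases e with e | e <;> rcases e' with e' | e'
    · exact ⟨h * h', H.mul_mem hh hh', Or.inl (by rw [map_mul, e, e', hc h hh h' hh'])⟩
    · exact ⟨h * h', H.mul_mem hh hh',
        Or.inr (by rw [map_mul, e, e', ← mul_assoc, hc h hh h' hh'])⟩
    · refine ⟨h * h'⁻¹, H.mul_mem hh (H.inv_mem hh'), Or.inr ?_⟩
      rw [map_mul ρ g g', e, e', mul_assoc, hswap _ (H.mul_mem hh' hh'), ← mul_assoc, mul_inv_rev,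
        hc h hh _ (H.inv_mem hh')]
    · refine ⟨h * h'⁻¹, H.mul_mem hh (H.inv_mem hh'), Or.inl ?_⟩
      rw [map_mul ρ g g', e, e', mul_assoc, ← mul_assoc (ρ τ), hswap _ (H.mul_mem hh' hh'),
        mul_assoc (ρ (h' * h')⁻¹), hτsq, mul_one, mul_inv_rev, hc h hh _ (H.inv_mem hh')]
  · rintro g ⟨h, hh, e⟩
    have hgg : ρ g⁻¹ * ρ g = 1 := by rw [← map_mul, inv_mul_cancel, map_one]
    rcases e with e | e
    · refine ⟨h⁻¹, H.inv_mem hh, Or.inl ?_⟩
      calc ρ g⁻¹ = ρ g⁻¹ * (ρ g * ρ (h⁻¹ * h⁻¹)) := by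
            rw [e, ← map_mul ρ (h * h), show h * h * (h⁻¹ * h⁻¹) = 1 by group, map_one, mul_one]
        _ = ρ (h⁻¹ * h⁻¹) := by rw [← mul_assoc, hgg, one_mul]
    · refine ⟨h, hh, Or.inr ?_⟩
      have hself : ρ g * ρ g = 1 := by
        rw [e, mul_assoc, ← mul_assoc (ρ τ), hflip _ (H.mul_mem hh hh), ← map_mul, mul_inv_cancel,
          map_one]
      rw [← e]
      calc ρ g⁻¹ = ρ g⁻¹ * (ρ g * ρ g) := by rw [hself, mul_one]
        _ = ρ g := by rw [← mul_assoc, hgg, one_mul]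

/-- A conjugate of `τ` is a square of an element of `H` times `τ`. -/
private lemma exists_sq_mul_of_conj (hH : H.index = 2) (hτH : τ ∉ H) (hτsq : ρ τ * ρ τ = 1)
    (hflip : ∀ h ∈ H, ρ τ * ρ h * ρ τ = ρ h⁻¹) (t : G) :
    ∃ h ∈ H, ρ t⁻¹ * ρ τ * ρ t = ρ (h * h) * ρ τ := by
  have key : ∀ a ∈ H, ρ a * ρ τ * ρ a⁻¹ = ρ (a * a) * ρ τ := fun a ha => by
    have h := hflip a⁻¹ (H.inv_mem ha)
    rw [inv_inv] at h
    rw [map_mul, mul_assoc (ρ a) (ρ a), mul_assoc (ρ a)]
    congr 1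
    rw [← h, mul_assoc (ρ τ * ρ a⁻¹), hτsq, mul_one]
  by_cases htH : t ∈ H
  · exact ⟨t⁻¹, H.inv_mem htH, by rw [← key _ (H.inv_mem htH), inv_inv]⟩
  · have ha : t⁻¹ * τ ∈ H :=
      (Subgroup.mul_mem_iff_of_index_two hH).2 (iff_of_false (mt inv_mem_iff.1 htH) hτH)
    refine ⟨t⁻¹ * τ, ha, ?_⟩
    rw [← key _ ha, mul_inv_rev, inv_inv]
    have hτe : ρ τ⁻¹ = ρ τ := by
      calc ρ τ⁻¹ = ρ τ * ρ τ * ρ τ⁻¹ := by rw [hτsq, one_mul]
        _ = ρ τ := by rw [mul_assoc, ← map_mul, mul_inv_cancel, map_one, mul_one]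
    simp only [map_mul, mul_assoc]
    rw [← mul_assoc (ρ τ) (ρ τ), hτsq, one_mul, hτe]

/-- If `H` acts trivially then the image lies in a plane. -/
private lemma false_of_map_eq_one (hs : Submodule.span k (Set.range ρ) = ⊤) (hH : H.index = 2)
    (hτH : τ ∉ H) (hτsq : ρ τ * ρ τ = 1) (htriv : ∀ a ∈ H, ρ a = 1) : False := by
  have hle : Submodule.span k (Set.range ρ) ≤ Submodule.span k (Set.range ![1, ρ τ]) := by
    rw [Submodule.span_le]
    rintro _ ⟨g, rfl⟩
    by_cases hg : g ∈ H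
    · rw [htriv g hg]; exact Submodule.subset_span ⟨0, rfl⟩
    · have := htriv _ ((Subgroup.mul_mem_iff_of_index_two hH).2 (iff_of_false hg hτH))
      rw [map_mul] at this
      refine Submodule.subset_span ⟨1, ?_⟩
      show ρ τ = ρ g
      calc ρ τ = ρ g * ρ τ * ρ τ := by rw [this, one_mul]
        _ = ρ g := by rw [mul_assoc, hτsq, mul_one]
  rw [hs, top_le_iff] at hle
  have hfr := finrank_range_le_card (R := k) ![(1 : Matrix (Fin 2) (Fin 2) k), ρ τ]
  rw [Set.finrank, hle, finrank_top, Module.finrank_matrix] at hfr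
  simp at hfr

end Image

section Three

variable {G : Type*} [Group G] {ρ : G →* Matrix (Fin 2) (Fin 2) (ZMod 3)} {H : Subgroup G}

/-- If squaring is onto the image of `H` then `-1` is not in it. -/
private lemma map_ne_neg_one (hsquare : ∀ a ∈ H, ∃ h ∈ H, ρ a = ρ h * ρ h) {m : G} (hm : m ∈ H) :
    ρ m ≠ -1 := fun hm1 => by
  have : Finite (Matrix (Fin 2) (Fin 2) (ZMod 3)) :=
    inferInstanceAs (Finite (Fin 2 → Fin 2 → ZMod 3))
  let I := ρ '' (H : Set G)
  have hsurj : Function.Surjective (fun x : I => (⟨x.1 * x.1, by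
      obtain ⟨_, a, ha, rfl⟩ := x
      exact ⟨a * a, H.mul_mem ha ha, map_mul ρ a a⟩⟩ : I)) := by
    rintro ⟨_, a, ha, rfl⟩
    obtain ⟨h, hh, e⟩ := hsquare a ha
    exact ⟨⟨ρ h, h, hh, rfl⟩, Subtype.ext e.symm⟩
  have hinjsq := Finite.injective_iff_surjective.2 hsurj
  have := @hinjsq ⟨ρ m, m, hm, rfl⟩ ⟨ρ 1, 1, H.one_mem, rfl⟩
    (Subtype.ext (by simp [hm1, map_one]))
  have h1 := congrArg (fun x : I => x.1 0 0) this
  simp [hm1, map_one] at h1
  exact one_ne_neg_one_three h1.symm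

/-- Without `-1`, a subgroup of determinant one without nilpotents acts trivially. -/
private lemma map_eq_one_of_det_eq_one (hdet : ∀ h ∈ H, (ρ h).det = 1)
    (hss : ∀ h ∈ H, (ρ h - 1) * (ρ h - 1) = 0 → ρ h = 1) (hneg : ∀ m ∈ H, ρ m ≠ -1)
    {a : G} (ha : a ∈ H) : ρ a = 1 := by
  have h1 : ρ a * ρ a = (ρ a).trace • ρ a - 1 := by rw [mul_self_eq, hdet a ha, one_smul]
  rcases zmod_three_cases (ρ a).trace with h | h | h <;> rw [h] at h1
  · exact absurd (by rw [map_mul, h1, zero_smul, zero_sub]) (hneg _ (H.mul_mem ha ha))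
  · refine absurd ?_ (hneg _ (H.mul_mem (H.mul_mem ha ha) ha))
    rw [map_mul, map_mul, h1, one_smul, sub_mul, one_mul, h1, one_smul]
    abel
  · refine hss a ha ?_
    rw [sub_mul, mul_sub, mul_one, one_mul, h1]
    module

end Three

section Galois

variable {H : Subgroup GQ}

/-- Up to conjugation, the inertia groups at `p` act as the one at `A`. -/
private lemma map_inertia_of_conj {k : Type*} [Field k] {ρ : GQ →* Matrix (Fin 2) (Fin 2) k}
    (hH : H.index = 2) {A : ValuationSubring Qbar} (hA : A.LiesOverPrime p) {τ : GQ}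
    (hIH : ∀ σ ∈ A.inertiaSubgroupIn ℚ, σ ∈ H → ρ σ = 1)
    (hIout : ∀ σ ∈ A.inertiaSubgroupIn ℚ, σ ∉ H → ρ σ = ρ τ)
    {B : ValuationSubring Qbar} (hB : B.LiesOverPrime p) {σ : GQ}
    (hσ : σ ∈ B.inertiaSubgroupIn ℚ) :
    (σ ∈ H → ρ σ = 1) ∧ (σ ∉ H → ∃ t : GQ, ρ σ = ρ t⁻¹ * ρ τ * ρ t) := by
  have : H.Normal := Subgroup.normal_of_index_eq_two hH
  obtain ⟨t, ht⟩ := exists_smul_eq hp.out hB hA
  have hmem : t * σ * t⁻¹ ∈ A.inertiaSubgroupIn ℚ :=
    ht ▸ conj_mem_inertiaSubgroupIn hp.out hB hσ t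
  have e : ρ σ = ρ t⁻¹ * ρ (t * σ * t⁻¹) * ρ t := by
    rw [← map_mul, ← map_mul]; congr 1; group
  refine ⟨fun hσH => ?_, fun hσH => ⟨t, ?_⟩⟩
  · rw [e, hIH _ hmem (Subgroup.Normal.conj_mem ‹_› σ hσH t), mul_one, ← map_mul, inv_mul_cancel,
      map_one]
  · rw [e, hIout _ hmem fun h => hσH (by
      simpa [mul_assoc] using Subgroup.Normal.conj_mem ‹_› _ h t⁻¹)]

variable {ρ : GQ →* Matrix (Fin 2) (Fin 2) (ZMod 3)} {τ : GQ}

/-- The determinant is the character of `H`, so it is trivial on `H`. -/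
private lemma det_eq_one_of_mem (hH : H.index = 2) (hker : IsOpen (ρ.ker : Set GQ))
    (hkH : ∀ σ, ρ σ = 1 → σ ∈ H)
    (hoff : ∀ q : ℕ, q.Prime → q ≠ 3 → ∀ B : ValuationSubring Qbar, B.LiesOverPrime q →
      ∀ σ ∈ B.inertiaSubgroupIn ℚ, σ ∈ H ∧ ρ σ = 1)
    (hat3 : ∀ B : ValuationSubring Qbar, B.LiesOverPrime 3 → ∀ σ ∈ B.inertiaSubgroupIn ℚ,
      (σ ∈ H → ρ σ = 1) ∧ (σ ∉ H → ∃ t : GQ, ρ σ = ρ t⁻¹ * ρ τ * ρ t))
    (hτ : (ρ τ).det = -1) {h : GQ} (hh : h ∈ H) : (ρ h).det = 1 := by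
  classical
  let ψ : GQ →* ZMod 3 :=
    { toFun := fun g => (ρ g).det * if g ∈ H then 1 else -1
      map_one' := by simp [H.one_mem]
      map_mul' := fun g g' => by
        by_cases h : g ∈ H <;> by_cases h' : g' ∈ H <;>
          simp [Subgroup.mul_mem_iff_of_index_two hH, h, h', Matrix.det_mul] }
  have hψ : ψ = 1 := by
    refine monoidHom_eq_one_of_unramified ψ (Subgroup.isOpen_mono (fun σ hσ => ?_) hker)
      fun q hq B hB σ hσ => ?_
    · rw [MonoidHom.mem_ker] at hσ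
      show (ρ σ).det * _ = 1
      rw [hσ, Matrix.det_one, if_pos (hkH σ hσ), mul_one]
    show (ρ σ).det * _ = 1
    by_cases hq3 : q = 3
    · subst hq3
      by_cases hσH : σ ∈ H
      · rw [(hat3 B hB σ hσ).1 hσH, Matrix.det_one, if_pos hσH, mul_one]
      · obtain ⟨t, ht⟩ := (hat3 B hB σ hσ).2 hσH
        rw [ht, if_neg hσH, Matrix.det_mul, Matrix.det_mul, mul_right_comm _ (ρ τ).det,
          ← Matrix.det_mul, ← map_mul, inv_mul_cancel, map_one, Matrix.det_one, one_mul,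
          hτ, neg_mul_neg, one_mul]
    · obtain ⟨hσH, h1⟩ := hoff q hq hq3 B hB σ hσ
      rw [h1, Matrix.det_one, if_pos hσH, mul_one]
  have e : ψ h = 1 := by rw [hψ]; rfl
  change (ρ h).det * (if h ∈ H then 1 else -1) = 1 at e
  rwa [if_pos hh, mul_one] at e

/-- Squaring is onto the image of `H`. -/
private lemma exists_map_eq_sq (hH : H.index = 2) (hker : IsOpen (ρ.ker : Set GQ))
    (hoff : ∀ q : ℕ, q.Prime → q ≠ 3 → ∀ B : ValuationSubring Qbar, B.LiesOverPrime q →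
      ∀ σ ∈ B.inertiaSubgroupIn ℚ, σ ∈ H ∧ ρ σ = 1)
    (hat3 : ∀ B : ValuationSubring Qbar, B.LiesOverPrime 3 → ∀ σ ∈ B.inertiaSubgroupIn ℚ,
      (σ ∈ H → ρ σ = 1) ∧ (σ ∉ H → ∃ t : GQ, ρ σ = ρ t⁻¹ * ρ τ * ρ t))
    (hcomm : ∀ a ∈ H, ∀ b ∈ H, ρ a * ρ b = ρ b * ρ a)
    (hτH : τ ∉ H) (hτdet : (ρ τ).det = -1) (hτsq : ρ τ * ρ τ = 1)
    (hflip : ∀ h ∈ H, ρ τ * ρ h * ρ τ = ρ h⁻¹) (hdet : ∀ h ∈ H, (ρ h).det = 1)
    {a : GQ} (ha : a ∈ H) : ∃ h ∈ H, ρ a = ρ h * ρ h := by
  obtain ⟨T, hT⟩ := exists_subgroup_squares hcomm hτsq hflip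
  have hkT : ρ.ker ≤ T := fun σ hσ => (hT σ).2
    ⟨1, H.one_mem, Or.inl (by rw [MonoidHom.mem_ker.1 hσ, mul_one, map_one])⟩
  have htop : T = ⊤ := eq_top_of_inertia_le (Subgroup.isOpen_mono hkT hker) fun q hq B hB σ hσ => by
    by_cases hq3 : q = 3
    · subst hq3
      by_cases hσH : σ ∈ H
      · exact hkT (MonoidHom.mem_ker.2 ((hat3 B hB σ hσ).1 hσH))
      obtain ⟨t, ht⟩ := (hat3 B hB σ hσ).2 hσH
      obtain ⟨h, hh, e⟩ := exists_sq_mul_of_conj hH hτH hτsq hflip t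
      exact (hT σ).2 ⟨h, hh, Or.inr (ht.trans e)⟩
    · exact hkT (MonoidHom.mem_ker.2 (hoff q hq hq3 B hB σ hσ).2)
  obtain ⟨h, hh, e | e⟩ := (hT a).1 (htop ▸ Subgroup.mem_top a)
  · exact ⟨h, hh, by rw [e, map_mul]⟩
  · have h1 := congrArg Matrix.det e
    rw [hdet a ha, Matrix.det_mul, hdet _ (H.mul_mem hh hh), hτdet, one_mul] at h1
    exact absurd h1 one_ne_neg_one_three

/-- At `3` no image with the properties of the ordinary case exists. -/
private lemma false_of_three (hs : Submodule.span (ZMod 3) (Set.range ρ) = ⊤) (hH : H.index = 2)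
    (hker : IsOpen (ρ.ker : Set GQ)) (hkH : ∀ σ, ρ σ = 1 → σ ∈ H)
    (hoff : ∀ q : ℕ, q.Prime → q ≠ 3 → ∀ B : ValuationSubring Qbar, B.LiesOverPrime q →
      ∀ σ ∈ B.inertiaSubgroupIn ℚ, σ ∈ H ∧ ρ σ = 1)
    (hat3 : ∀ B : ValuationSubring Qbar, B.LiesOverPrime 3 → ∀ σ ∈ B.inertiaSubgroupIn ℚ,
      (σ ∈ H → ρ σ = 1) ∧ (σ ∉ H → ∃ t : GQ, ρ σ = ρ t⁻¹ * ρ τ * ρ t))
    (hcomm : ∀ a ∈ H, ∀ b ∈ H, ρ a * ρ b = ρ b * ρ a)
    (hss : ∀ h ∈ H, (ρ h - 1) * (ρ h - 1) = 0 → ρ h = 1)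
    (hsq : ∀ σ ∉ H, ρ σ * ρ σ = (-(ρ σ).det) • 1) (hτH : τ ∉ H) (hτ : (ρ τ).det = -1) :
    False := by
  have hτsq : ρ τ * ρ τ = 1 := by rw [hsq τ hτH, hτ, neg_neg, one_smul]
  have hdet : ∀ h ∈ H, (ρ h).det = 1 := fun h => det_eq_one_of_mem hH hker hkH hoff hat3 hτ
  have hflip : ∀ h ∈ H, ρ τ * ρ h * ρ τ = ρ h⁻¹ := fun h hh => by
    have h1 := hsq _ fun h' : τ * h ∈ H => hτH ((H.mul_mem_cancel_right hh).1 h')
    rw [map_mul, Matrix.det_mul, hτ, hdet h hh, neg_one_mul, neg_neg, one_smul] at h1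
    calc ρ τ * ρ h * ρ τ = ρ τ * ρ h * ρ τ * (ρ h * ρ h⁻¹) := by
          rw [← map_mul ρ h h⁻¹, mul_inv_cancel, map_one, mul_one]
      _ = ρ h⁻¹ := by rw [← mul_assoc, mul_assoc (ρ τ * ρ h), h1, one_mul]
  have hneg := fun m => map_ne_neg_one (m := m) fun a =>
    exists_map_eq_sq hH hker hoff hat3 hcomm hτH hτ hτsq hflip hdet
  exact false_of_map_eq_one hs hH hτH hτsq fun a => map_eq_one_of_det_eq_one hdet hss hneg

end Galois

/-- An element with scalar square has `(p - 1)`-st power `± 1`. -/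
private lemma pow_sub_one_eq_or_eq_neg {R : Type*} [Ring R] [Algebra (ZMod p) R] (hodd : Odd p)
    {x : R} {d : ZMod p} (hd : d ≠ 0) (hx : x * x = d • 1) :
    x ^ (p - 1) = 1 ∨ x ^ (p - 1) = -1 := by
  obtain ⟨j, hj⟩ := hodd
  have hp1 : p - 1 = 2 * j := by omega
  have h1 : x ^ (p - 1) = (d ^ j) • (1 : R) := by
    rw [hp1, pow_mul, pow_two, hx, smul_pow, one_pow]
  have h3 : d ^ j * d ^ j = 1 := by
    rw [← pow_add, ← two_mul, ← hp1]
    exact ZMod.pow_card_sub_one_eq_one hd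
  rcases mul_self_eq_one_iff.1 h3 with h | h <;> rw [h] at h1
  · exact Or.inl (by rw [h1, one_smul])
  · exact Or.inr (by rw [h1, neg_one_smul])

/-- If `2 = ± 1` modulo an odd prime then the prime is `3`. -/
private lemma eq_three_of_two_eq (h : (2 : ZMod p) = 1 ∨ (2 : ZMod p) = -1) : p = 3 := by
  rcases h with h | h
  · exact absurd (by linear_combination h : (1 : ZMod p) = 0) one_ne_zero
  · have h3 : ((3 : ℕ) : ZMod p) = 0 := by push_cast; linear_combination h
    exact (Nat.prime_dvd_prime_iff_eq hp.out Nat.prime_three).1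
      ((ZMod.natCast_eq_zero_iff 3 p).1 h3)

end FermatAgent.Assembly.IndexTwo

namespace FermatAgent.Assembly

open IndexTwo GaloisBasic

local notation "Qbar" => AlgebraicClosure ℚ
local notation "GQ" => AlgebraicClosure ℚ ≃ₐ[ℚ] AlgebraicClosure ℚ

/-- **Irreducible semistable representations stay irreducible on subgroups of index two.** -/
theorem indexTwo (W : WeierstrassCurve ℤ) (p : ℕ) (hΔ0 : W.Δ ≠ 0) (hW : W.IsSemistableModel)
    (hpP : p.Prime) (hp2 : p ≠ 2) (hirr : W.ModRepIsIrreducible p) : IrredIndexTwo W p := by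
  intro H hH
  classical
  have : Fact p.Prime := ⟨hpP⟩
  have : NeZero p := ⟨hpP.ne_zero⟩
  have hodd : Odd p := hpP.odd_of_ne_two hp2
  have h2 : (2 : ZMod p) ≠ 0 := fun h => hp2 ((Nat.prime_dvd_prime_iff_eq hpP Nat.prime_two).1
    ((ZMod.natCast_eq_zero_iff 2 p).1 (by exact_mod_cast h)))
  have hV := EC.finrank_torsionBy_rat (W.map (Int.castRingHom ℚ))
    (EC.intMap_Δ_ne_zero hΔ0) p
  have : FiniteDimensional (ZMod p)
      (Submodule.torsionBy ℤ ((W.map (Int.castRingHom ℚ))⁄Qbar).Point p) :=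
    Module.finite_of_finrank_eq_succ hV
  have : Finite (Submodule.torsionBy ℤ ((W.map (Int.castRingHom ℚ))⁄Qbar).Point p) :=
    Module.finite_of_finite (ZMod p)
  set φ := torEnd W p with hφ
  show Submodule.span (ZMod p) (φ '' (H : Set GQ)) = ⊤
  obtain ⟨b, hspan⟩ := exists_basis_span_eq_top φ h2 hV (EC.exists_forall_ne_smul hΔ0 hirr)
    (c := complexConjugation) (by rw [← map_mul, complexConjugation_mul_self, map_one])
    (EC.det_complexConjugation hΔ0)
  set E := LinearMap.toMatrixAlgEquiv b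
  set ρ : GQ →* Matrix (Fin 2) (Fin 2) (ZMod p) := (E : _ →* _).comp φ
  refine span_image_eq_top_of_algEquiv E φ _ ?_
  by_contra hne
  have hkH : ∀ σ, ρ σ = 1 → σ ∈ H := fun σ => mem_of_map_eq_one hspan hH hne
  obtain ⟨htr, hcomm, hss⟩ := (dichotomy ρ H h2 hspan hH).resolve_left hne
  have hker : IsOpen (ρ.ker : Set GQ) :=
    EC.isOpen_ker_of_fixing (W.map (Int.castRingHom ℚ)) (n := p) ρ fun σ h =>
      (congrArg E h).trans (map_one E)
  have hdetE : ∀ f, (E f).det = LinearMap.det f := LinearMap.det_toMatrix b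
  -- inertia away from `p` is trivial
  have hoff : ∀ q : ℕ, q.Prime → q ≠ p → ∀ B : ValuationSubring Qbar, B.LiesOverPrime q →
      ∀ σ ∈ B.inertiaSubgroupIn ℚ, σ ∈ H ∧ ρ σ = 1 := fun q hq hqp B hB σ hσ => by
    refine mem_and_map_eq_one_of_unipotent hodd (ZMod.natCast_self p) hH hkH hss ?_
    show (E (φ σ) - 1) * (E (φ σ) - 1) = 0
    rw [← map_one E, ← map_sub, ← map_mul, show (φ σ - 1) * (φ σ - 1) = 0 from
      LinearMap.ext fun x => sub_eq_zero.2
        (ECLocal.inertia_unipotent hq hqp hB hΔ0 (hW q hq) hσ x), map_zero]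
  -- some inertia element at `p` is outside
  obtain ⟨A, hA, τ, hτ, hτH⟩ : ∃ A : ValuationSubring Qbar, A.LiesOverPrime p ∧
      ∃ τ ∈ A.inertiaSubgroupIn ℚ, τ ∉ H := by
    by_contra hcon
    push Not at hcon
    have htop := eq_top_of_inertia_le (Subgroup.isOpen_mono
      (fun σ hσ => hkH σ (MonoidHom.mem_ker.1 hσ)) hker) fun q hq B hB σ hσ => by
      by_cases hqp : q = p
      · subst hqp; exact hcon B hB σ hσ
      · exact (hoff q hq hqp B hB σ hσ).1
    rw [htop, Subgroup.index_top] at hH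
    exact absurd hH (by norm_num)
  have hsq : ∀ σ ∉ H, ρ σ * ρ σ = (-(ρ σ).det) • 1 := fun σ hσ => by
    rw [mul_self_eq, htr σ hσ, zero_smul, zero_sub, neg_smul]
  rcases det_sub_one_or_all_isE1 hodd hA hΔ0 (hW p hpP) with hord | ⟨hx₁, hall⟩
  swap
  · exact false_of_pow_eq_sign hodd hA hΔ0 hx₁ hall H hτ hτH fun σ _ hσH =>
      pow_sub_one_eq_or_eq_neg hodd (neg_ne_zero.2 (det_ne_zero ρ σ))
        (E.injective (by rw [map_mul, map_smul, map_one]; exact hsq σ hσH))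
  -- ordinary shape
  have htrace : ∀ σ ∈ A.inertiaSubgroupIn ℚ, (ρ σ).trace = (ρ σ).det + 1 := fun σ hσ =>
    trace_eq_det_add_one ((congrArg Matrix.det (by simp [ρ] : ρ σ - 1 = E (φ σ - 1))).trans
      ((hdetE _).trans (hord σ hσ)))
  have hout : ∀ σ ∈ A.inertiaSubgroupIn ℚ, σ ∉ H → (ρ σ).det = -1 := fun σ hσ hσH =>
    eq_neg_of_add_eq_zero_left ((htrace σ hσ).symm.trans (htr σ hσH))
  have hin : ∀ σ ∈ A.inertiaSubgroupIn ℚ, σ ∈ H → (ρ σ).det = 1 := fun σ hσ hσH => by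
    have h := hout _ (mul_mem hτ hσ) fun h => hτH ((H.mul_mem_cancel_right hσH).1 h)
    rw [map_mul, Matrix.det_mul, hout τ hτ hτH, neg_one_mul] at h
    exact neg_injective h
  obtain rfl : p = 3 := by
    obtain ⟨τ₂, hτ₂, hτ₂μ⟩ := RT.exists_inertia_cyclotomic hpP hA (Units.mk0 (2 : ZMod p) h2)
    have hd : (ρ τ₂).det = 2 := (hdetE _).trans (EC.det_galois_eq hΔ0 hτ₂μ)
    exact eq_three_of_two_eq (by rw [← hd]; exact (em (τ₂ ∈ H)).imp (hin τ₂ hτ₂) (hout τ₂ hτ₂))
  have hIH : ∀ σ ∈ A.inertiaSubgroupIn ℚ, σ ∈ H → ρ σ = 1 := fun σ hσ hσH => by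
    refine hss σ hσH ?_
    rw [sub_mul, mul_sub, mul_one, one_mul, mul_self_eq, htrace σ hσ, hin σ hσ hσH, one_smul,
      add_smul, one_smul]
    abel
  have hIout : ∀ σ ∈ A.inertiaSubgroupIn ℚ, σ ∉ H → ρ σ = ρ τ := fun σ hσ hσH => by
    have h := hIH _ (mul_mem hσ hτ)
      ((Subgroup.mul_mem_iff_of_index_two hH).2 (iff_of_false hσH hτH))
    rw [map_mul] at h
    calc ρ σ = ρ σ * (ρ τ * ρ τ) := by
          rw [hsq τ hτH, hout τ hτ hτH, neg_neg, one_smul, mul_one]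
      _ = ρ τ := by rw [← mul_assoc, h, one_mul]
  exact false_of_three hspan hH hker hkH hoff
    (fun B hB σ hσ => map_inertia_of_conj hH hA hIH hIout hB hσ)
    hcomm hss hsq hτH (hout τ hτ hτH)

end FermatAgent.Assembly
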